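import Fermat.Agent.Lifting.AtP.Sign
import Fermat.Agent.Lifting.Setup.Basic
import Fermat.Agent.CFT.Local.Global

/-!
# The Frobenius eigenvalue on the unramified quotient at `p`

If the eigenvalue `z` of Frobenius on the unramified quotient of an ordinary lift of the residual
representation of the curve satisfies `z² - a z + p = 0`, then `z` reduces to the sign `s` at `p`
and `p + 1 - s a` is a unit multiple of `z² - 1`; both are nonzero when `a² ≠ (p + 1)²`.
-/

set_option autoImplicit false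
set_option linter.style.haveILetI false

noncomputable section

open scoped Pointwise

namespace Fermat.Agent.Lifting

open IsLocalRing _root_.Module
open Fermat.Agent.Arith (QBar GQ)

variable {O : Type} [CommRing O] [IsLocalRing O] {p : ℕ}

/-- In the basis `b`, an ordinary basis at `P`, the element `F` acts on the quotient by `z`. -/
def IsQuotFrob (ρ : GaloisRepAdic O) (P : ValuationSubring QBar) (b : Basis (Fin 2) O ρ.V)
    (F : GQ) (z : O) : Prop :=
  (∀ g ∈ P.decompositionSubgroup ℚ, ∀ v ∈ O ∙ b 0, ρ.ρ g v ∈ O ∙ b 0) ∧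
    (∀ g ∈ P.inertiaSubgroupIn ℚ, ∀ v, ρ.ρ g v - v ∈ O ∙ b 0) ∧
    ∀ v, ρ.ρ F v - z • v ∈ O ∙ b 0

/-- The Frobenius eigenvalues on unramified quotients at `p` are roots of `X² - a X + p`. -/
def QuotQuadraticAt (ρ : GaloisRepAdic O) (p : ℕ) (a : O) : Prop :=
  ∀ P : ValuationSubring QBar, P.LiesOverPrime p → ∀ F : GQ, P.IsFrobeniusAt F p →
    ∀ (b : Basis (Fin 2) O ρ.V) (z : O), IsQuotFrob ρ P b F z → z ^ 2 - a * z + (p : O) = 0

theorem QuotQuadraticAt.congr {ρ ρ' : GaloisRepAdic O} (he : ρ.IsEquiv ρ') {a : O}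
    (h : QuotQuadraticAt ρ p a) : QuotQuadraticAt ρ' p a := by
  obtain ⟨e⟩ := he
  intro P hP F hF b z ⟨h1, h2, h3⟩
  let f := e.toLinearEquiv
  have key : ∀ v, v ∈ O ∙ (b.map f.symm) 0 ↔ f v ∈ O ∙ b 0 := fun v => by
    rw [Basis.map_apply, Submodule.mem_span_singleton, Submodule.mem_span_singleton]
    refine exists_congr fun c => ?_
    rw [← map_smul, LinearEquiv.symm_apply_eq]
  refine h P hP F hF (b.map f.symm) z ⟨fun g hg v hv => ?_, fun g hg v => ?_, fun v => ?_⟩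
  · rw [key] at hv ⊢
    rw [e.map_apply]
    exact h1 g hg _ hv
  · rw [key, map_sub, e.map_apply]
    exact h2 g hg _
  · rw [key, map_sub, map_smul, e.map_apply]
    exact h3 _

/-- The quotient eigenvalue only depends on the element modulo inertia. -/
theorem IsQuotFrob.mul_inertia {ρ : GaloisRepAdic O} {P : ValuationSubring QBar}
    {b : Basis (Fin 2) O ρ.V} {F τ : GQ} {z : O} (h : IsQuotFrob ρ P b F z)
    (hF : F ∈ P.decompositionSubgroup ℚ) (hτ : τ ∈ P.inertiaSubgroupIn ℚ) :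
    IsQuotFrob ρ P b (F * τ) z := by
  refine ⟨h.1, h.2.1, fun v => ?_⟩
  have e : ρ.ρ (F * τ) v - z • v = ρ.ρ F (ρ.ρ τ v - v) + (ρ.ρ F v - z • v) := by
    rw [map_mul, Module.End.mul_apply, map_sub]
    abel
  rw [e]
  exact add_mem (h.1 F hF _ (h.2.1 τ hτ v)) (h.2.2 v)

variable [Fact p.Prime]

/-- The quotient eigenvalue reduces to the residual sign. -/
theorem quotFrob_sub_sign_mem {ρ : GaloisRepAdic O} (hdet : ρ.DetIsCyclotomic p) {s : ℤ}
    (hs : s = 1 ∨ s = -1) {P : ValuationSubring QBar} (hP : P.LiesOverPrime p)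
    (htr : ∀ σ : GQ, P.IsFrobeniusAt σ p → (∀ μ : QBar, μ ^ p = 1 → σ μ = μ) →
      LinearMap.trace O ρ.V (ρ.ρ σ) - ((2 * s : ℤ) : O) ∈ maximalIdeal O)
    {F : GQ} (hF : P.IsFrobeniusAt F p) {b : Basis (Fin 2) O ρ.V} {z : O}
    (h : IsQuotFrob ρ P b F z) : z - (s : O) ∈ maximalIdeal O := by
  obtain ⟨σ, hσ, hfix⟩ := exists_frobenius_fix hP
  have hτ : F⁻¹ * σ ∈ P.inertiaSubgroupIn ℚ := Arith.inv_mul_mem_inertia hσ hF
  have h' := h.mul_inertia hF.mem_decompositionSubgroup hτ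
  rw [mul_inv_cancel_left] at h'
  obtain ⟨x, hx⟩ := Submodule.mem_span_singleton.mp
    (h'.1 σ hσ.mem_decompositionSubgroup _ (Submodule.mem_span_singleton_self _))
  obtain ⟨htr', hdet'⟩ := trace_det_of_line b hx.symm (h'.2.2 (b 1))
  have h1 : x + z - ((2 * s : ℤ) : O) ∈ maximalIdeal O := htr' ▸ htr σ hσ hfix
  have h2 : x * z - 1 ∈ maximalIdeal O := by
    have h0 := hdet.2 1 σ 1 fun μ hμ => by rw [pow_one] at hμ; rw [pow_one]; exact hfix μ hμ
    rw [pow_one, hdet', Nat.cast_one] at h0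
    exact (Ideal.span_singleton_le_iff_mem _).mpr hdet.1 h0
  have h3 : (z - (s : O)) * (z - (s : O)) ∈ maximalIdeal O := by
    have hs2 : (s : O) * (s : O) = 1 := by rcases hs with rfl | rfl <;> simp
    have e : (z - (s : O)) * (z - (s : O)) =
        z * (x + z - ((2 * s : ℤ) : O)) - (x * z - 1) := by
      push_cast
      linear_combination hs2
    rw [e]
    exact sub_mem (Ideal.mul_mem_left _ _ h1) h2
  exact ((maximalIdeal.isMaximal O).isPrime.mem_or_mem h3).elim id id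

/-- `p + 1 - s a` is a unit multiple of `z² - 1`, and is nonzero. -/
theorem quadratic_comparison [IsDomain O] (hp2 : p ≠ 2) (hpO : (p : O) ∈ maximalIdeal O) {s : ℤ}
    (hs : s = 1 ∨ s = -1) {z a : O} (hz : z - (s : O) ∈ maximalIdeal O)
    (hq : z ^ 2 - a * z + (p : O) = 0) :
    (∃ u : Oˣ, (p : O) + 1 - (s : O) * a = u * (z ^ 2 - 1)) ∧
      (a ^ 2 ≠ ((p : O) + 1) ^ 2 → z ^ 2 - 1 ≠ 0 ∧ (p : O) + 1 - (s : O) * a ≠ 0) := by
  have hs2 : (s : O) * (s : O) = 1 := by rcases hs with rfl | rfl <;> simp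
  have hsu : IsUnit (s : O) := IsUnit.of_mul_eq_one _ hs2
  have h2 : IsUnit (2 : O) := by
    obtain ⟨j, hj⟩ := (Fact.out : p.Prime).odd_of_ne_two hp2
    by_contra h
    have hm : (2 : O) ∈ maximalIdeal O := (mem_maximalIdeal _).mpr h
    refine (maximalIdeal.isMaximal O).ne_top ((Ideal.eq_top_iff_one _).mpr ?_)
    have := sub_mem hpO (Ideal.mul_mem_right (j : O) (maximalIdeal O) hm)
    rw [hj] at this
    push_cast at this
    simp at this
  have add_mem_unit : ∀ {u w : O}, IsUnit u → w ∈ maximalIdeal O → IsUnit (u + w) := by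
    intro u w hu hw
    by_contra h
    exact (mem_maximalIdeal _).mp ((add_sub_cancel_right u w) ▸
      sub_mem ((mem_maximalIdeal _).mpr h) hw) hu
  have hzu : IsUnit z := by simpa using add_mem_unit hsu hz
  have hzs : IsUnit (z + (s : O)) := by
    have := add_mem_unit (h2.mul hsu) hz
    rwa [show (2 : O) * (s : O) + (z - (s : O)) = z + (s : O) by ring] at this
  have hps : IsUnit ((p : O) - (s : O) * z) := by
    have := add_mem_unit (hsu.mul hzu).neg hpO
    rwa [show -((s : O) * z) + (p : O) = (p : O) - (s : O) * z by ring] at this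
  have key : ((z + (s : O)) * z) * ((p : O) + 1 - (s : O) * a) =
      ((p : O) - (s : O) * z) * (z ^ 2 - 1) := by
    linear_combination ((s : O) * (z + (s : O))) * hq - ((p : O) + z ^ 2) * hs2
  refine ⟨⟨(hzs.mul hzu).unit⁻¹ * hps.unit, ?_⟩, fun ha => ?_⟩
  · rw [Units.val_mul, mul_assoc, IsUnit.unit_spec, ← key, ← mul_assoc, IsUnit.val_inv_mul,
      one_mul]
  · have hz1 : z ^ 2 - 1 ≠ 0 := fun h => ha <| by
      have e : a * z = (p : O) + 1 := by linear_combination -hq + h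
      rw [← e]
      linear_combination -(a ^ 2) * h
    exact ⟨hz1, fun h => mul_ne_zero hps.ne_zero hz1 (by rw [← key, h, mul_zero])⟩

section Ctx

variable {O : Type} [CommRing O] [IsDomain O] [IsDiscreteValuationRing O] {p : ℕ} [Fact p.Prime]
  [CharP (ResidueField O) p] (C : Ctx O p) {ρ : GaloisRepAdic O}

/-- The residual trace of a lift at a fixing Frobenius element. -/
theorem trace_sub_sp_mem (hres : ρ.residual.IsEquiv C.ρbar) (hbad : (p : ℤ) ∣ C.W.Δ)
    {P : ValuationSubring QBar} (hP : P.LiesOverPrime p) {σ : GQ} (hσ : P.IsFrobeniusAt σ p)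
    (hfix : ∀ μ : QBar, μ ^ p = 1 → σ μ = μ) :
    LinearMap.trace O ρ.V (ρ.ρ σ) - ((2 * C.sp : ℤ) : O) ∈ maximalIdeal O := by
  obtain ⟨e⟩ := hres
  rw [← residue_eq_zero_iff, map_sub, map_intCast, sub_eq_zero,
    ← C.sp_spec hbad P hP σ hσ hfix]
  have hc : e.toLinearEquiv.conj (ρ.residual.ρ σ) = C.ρbar.ρ σ := LinearMap.ext fun x => by
    rw [LinearEquiv.conj_apply_apply, e.map_apply, LinearEquiv.apply_symm_apply]
  rw [← hc, LinearMap.trace_conj']
  exact (LinearMap.trace_baseChange (ρ.ρ σ) (ResidueField O)).symm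

/-- **The two local factors at `p` agree.** -/
theorem exists_frobenius_dvd_sp (hres : ρ.residual.IsEquiv C.ρbar) (hbad : (p : ℤ) ∣ C.W.Δ)
    (hdet : ρ.DetIsCyclotomic p) {a : O} (hquad : QuotQuadraticAt ρ p a) :
    ∃ F ∈ (padicPlace p).decompositionSubgroup ℚ,
      ∀ (b : Basis (Fin 2) O ρ.V) (z : O),
        (∀ g ∈ (padicPlace p).decompositionSubgroup ℚ, ∀ v ∈ O ∙ b 0, ρ.ρ g v ∈ O ∙ b 0) →
        (∀ g ∈ (padicPlace p).inertiaSubgroupIn ℚ, ∀ v, ρ.ρ g v - v ∈ O ∙ b 0) →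
        (∀ v, ρ.ρ F v - z • v ∈ O ∙ b 0) → z ^ 2 - 1 ∣ (p : O) + 1 - (C.sp : O) * a := by
  have hP := CFT.Local.padicPlace_liesOverPrime p
  obtain ⟨F, hF⟩ := Arith.exists_isFrobeniusAt hP (Fact.out : p.Prime)
  refine ⟨F, hF.mem_decompositionSubgroup, fun b z h1 h2 h3 => ?_⟩
  have h : IsQuotFrob ρ (padicPlace p) b F z := ⟨h1, h2, h3⟩
  obtain ⟨⟨u, hu⟩, -⟩ := quadratic_comparison C.p_ne_two hdet.1 C.sp_unit
    (quotFrob_sub_sign_mem hdet C.sp_unit hP
      (fun σ hσ hfix => trace_sub_sp_mem C hres hbad hP hσ hfix) hF h)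
    (hquad _ hP F hF b z h)
  exact hu ▸ dvd_mul_left _ _

omit [CharP (ResidueField O) p] in
/-- The factor at `p` is nonzero. -/
theorem succ_sub_sp_mul_ne_zero {a : O} (ha : a ^ 2 ≠ ((p : O) + 1) ^ 2) :
    (p : O) + 1 - (C.sp : O) * a ≠ 0 := fun h => ha <| by
  have hs2 : (C.sp : O) * (C.sp : O) = 1 := by
    rcases C.sp_unit with e | e <;> simp [e]
  linear_combination (-(a * (C.sp : O)) - ((p : O) + 1)) * h - a ^ 2 * hs2

end Ctx

end Fermat.Agent.Lifting

end
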