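import Fermat.Agent.Lifting.Assembly.Growth
import Fermat.Agent.Lifting.Eigen.AtP
import Fermat.Agent.FiniteFlat.GrassOrder
import Fermat.Agent.Lifting.Galois.ResidualTrace
import Fermat.Agent.GaloisReps.Models
import Fermat.Agent.GaloisReps.PadicHom
import Fermat.Agent.GaloisReps.Attach
import Fermat.Agent.ConductorLevel.Eigen

/-!
# The quotient eigenvalue at `p` at a point with the system of an eigenform

A point with the eigenvalues of an eigenform of level prime to `p` carries the representation of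
the form in the model of `J₀` of its level, so the quadratic relation at `p` there is that of the
form.
-/

set_option autoImplicit false
set_option linter.style.haveILetI false

noncomputable section

namespace Fermat.Agent.Lifting

open IsLocalRing _root_.Module CongruenceSubgroup ModularFormClass
open Fermat.Agent.Arith (QBar)
open Fermat.Agent.Deform (Gal IsResAlg matOf isCont_matOf)
open Fermat.Agent.GaloisReps (FullHecke heckeGaloisModel)

variable {O : Type} [CommRing O] [IsDomain O] [IsDiscreteValuationRing O]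
  [IsAdicComplete (maximalIdeal O) O] [Finite (ResidueField O)] [CharZero O]
  {p : ℕ} [Fact p.Prime]

/-- At a point with the system of an eigenform the representation is that of the form. -/
theorem exists_rep_isEquiv_pointBC (hp2 : p ≠ 2) (hp : (p : O) ∈ maximalIdeal O)
    {ρbar : ResidualGaloisRep (ResidueField O)} (habs : ρbar.IsAbsolutelyIrreducible)
    {A : Type} [CommRing A] [IsLocalRing A] [Algebra O A] [Module.Finite O A] (hA : IsResAlg O A)
    [IsLocalHom (algebraMap O A)] (ρ : GaloisRepAdic A)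
    (hres : ρ.residual.IsEquiv (ρbar.baseChangeAlong (ResidueField.map (algebraMap O A))))
    (S : Finset ℕ) (op : ℕ → A)
    (htr : ∀ ℓ : ℕ, ℓ.Prime → ℓ ∉ S → ∀ P : ValuationSubring QBar, P.LiesOverPrime ℓ →
      ∀ τ : Gal, P.IsFrobeniusAt τ ℓ → ρ.trace τ = op ℓ)
    (x : A →ₐ[O] O) (σ : O →+* ℂ) (hσ : Function.Injective σ) {L : ℕ} [NeZero L]
    {g : CuspForm (Gamma0 L) 2} (hg : g.IsNormalizedEigenform) (α : ℕ → O)
    (hα : ∀ q : ℕ, q.Prime → σ (α q) = qCoeff g q)
    (hgx : ∀ ℓ : ℕ, ℓ.Prime → ℓ ∉ S → qCoeff g ℓ = σ (x (op ℓ))) :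
    ∃ (ι : ℤ_[p] →+* O) (θ : FullHecke L →+* O),
      (∀ (q : ℕ) (hq : q.Prime), ¬ q ∣ L → θ (HeckeDuality.heckeOp L 2 q hq) = α q) ∧
        ((heckeGaloisModel L p).rep ι θ hp).IsEquiv (pointBC ρ x) := by
  classical
  obtain ⟨ι⟩ := GaloisReps.exists_padicHom O hp
  let R : Subalgebra ℤ ℂ := σ.toIntAlgHom.range
  have hR : (ConductorLevel.eigenChar hg ∅).range ≤ R.toSubring :=
    ConductorLevel.eigenChar_range_le hg R fun ℓ hℓ _ => ⟨α ℓ, hα ℓ hℓ⟩
  let e : O ≃+* σ.range := RingEquiv.ofBijective σ.rangeRestrict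
    ⟨fun a b h => hσ (congrArg Subtype.val h), σ.rangeRestrict_surjective⟩
  have hR' : (ConductorLevel.eigenChar hg ∅).range ≤ σ.range := fun z hz => hR hz
  let θ : FullHecke L →+* O := e.symm.toRingHom.comp
    ((Subring.inclusion hR').comp (ConductorLevel.eigenChar hg ∅).rangeRestrict)
  have hθσ : ∀ t, σ (θ t) = ConductorLevel.eigenChar hg ∅ t := fun t =>
    congrArg Subtype.val (e.apply_symm_apply
      (Subring.inclusion hR' ((ConductorLevel.eigenChar hg ∅).rangeRestrict t)))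
  have hθ : ∀ (q : ℕ) (hq : q.Prime), ¬ q ∣ L → θ (HeckeDuality.heckeOp L 2 q hq) = α q :=
    fun q hq hqL => hσ (by
      rw [hθσ, hα q hq, HeckeDuality.heckeOp, dif_neg hqL]
      exact ConductorLevel.eigenChar_T hg hq hqL _)
  refine ⟨ι, θ, hθ, ?_⟩
  set ρg := (heckeGaloisModel L p).rep ι θ hp
  set ρx := pointBC ρ x
  set T := S ∪ (L * p).primeFactors
  have hcmp : ∀ ℓ : ℕ, ℓ.Prime → ℓ ∉ T → ∀ P : ValuationSubring QBar, P.LiesOverPrime ℓ →
      ∀ τ : Gal, P.IsFrobeniusAt τ ℓ →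
        LinearMap.trace O ρg.V (ρg.ρ τ) = LinearMap.trace O ρx.V (ρx.ρ τ) := by
    intro ℓ hℓ hℓT P hP τ hτ
    rw [Finset.notMem_union, Nat.mem_primeFactors] at hℓT
    have hℓN : ¬ ℓ ∣ L * p := fun h =>
      hℓT.2 ⟨hℓ, h, mul_ne_zero (NeZero.ne L) (Fact.out : p.Prime).ne_zero⟩
    have hℓL : ¬ ℓ ∣ L := fun h => hℓN (dvd_mul_of_dvd_left h p)
    rw [trace_pointBC, htr ℓ hℓ hℓT.1 P hP τ hτ]
    refine hσ ?_
    rw [← hgx ℓ hℓ hℓT.1, ← hα ℓ hℓ, ← hθ ℓ hℓ hℓL]
    congr 1
    let b := Module.finBasisOfFinrankEq O ρg.V ρg.finrank_eq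
    rw [LinearMap.trace_eq_matrix_trace O b, Matrix.trace_eq_neg_charpoly_coeff,
      LinearMap.charpoly_toMatrix,
      show LinearMap.charpoly (ρg.ρ τ) = _ from
        (heckeGaloisModel L p).charpoly_eigenAction_frobenius ι θ GaloisReps.frobeniusDensity hp
          hℓ hℓN hP hτ, Fintype.card_fin]
    simp [Polynomial.coeff_X_pow, Polynomial.coeff_C]
  let bg := Module.finBasisOfFinrankEq O ρg.V ρg.finrank_eq
  let bx := Module.finBasisOfFinrankEq O ρx.V ρx.finrank_eq
  have hall : ∀ τ, LinearMap.trace O ρg.V (ρg.ρ τ) = LinearMap.trace O ρx.V (ρx.ρ τ) := fun τ => by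
    rw [LinearMap.trace_eq_matrix_trace O bg, LinearMap.trace_eq_matrix_trace O bx]
    exact trace_eq_of_frobenius isResAlg_self (isCont_matOf ρg bg) (isCont_matOf ρx bx) T
      (fun ℓ hℓ hℓT P hP s hs => by
        have h := hcmp ℓ hℓ hℓT P hP s hs
        rwa [LinearMap.trace_eq_matrix_trace O bg, LinearMap.trace_eq_matrix_trace O bx] at h) τ
  have hresx : ρx.residual.IsEquiv
      (ρbar.baseChangeAlong (ResidueField.map (algebraMap O O))) :=
    residual_isEquiv_map habs hA isResAlg_self x (isLocalHom_algHom isResAlg_self x) hres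
  have hk : (ResidueField.map (algebraMap O O) : ResidueField O →+* ResidueField O) =
      RingHom.id _ := RingHom.ext fun r => by obtain ⟨o, rfl⟩ := residue_surjective r; rfl
  have hrt : ∀ (r : GaloisRepAdic O) τ,
      LinearMap.trace (ResidueField O) r.residual.V (r.residual.ρ τ) =
        residue O (LinearMap.trace O r.V (r.ρ τ)) := fun r τ =>
    (LinearMap.trace_baseChange (r.ρ τ) (ResidueField O))
  have hresg : ρg.residual.IsEquiv
      (ρbar.baseChangeAlong (ResidueField.map (algebraMap O O))) := by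
    obtain ⟨u⟩ := hresx
    obtain ⟨v⟩ := residualBaseChange_id ρbar hk
    suffices h : ρbar.IsEquiv ρg.residual by
      obtain ⟨w⟩ := h
      exact ⟨w.symm.trans v.symm⟩
    refine isEquiv_of_trace_eq habs fun τ => ?_
    have hc : (u.trans v).toLinearEquiv.conj (ρx.residual.ρ τ) = ρbar.ρ τ :=
      LinearMap.ext fun w => by
        rw [LinearEquiv.conj_apply_apply, (u.trans v).map_apply, LinearEquiv.apply_symm_apply]
    rw [← hc, LinearMap.trace_conj', hrt, hrt, hall]
  refine isEquiv_of_trace_frobenius isResAlg_self ?_ habs _ _ hresg hresx T hcmp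
  by_contra h2
  refine (maximalIdeal.isMaximal O).ne_top ((Ideal.eq_top_iff_one _).mpr ?_)
  obtain ⟨j, hj⟩ := (Fact.out : p.Prime).odd_of_ne_two hp2
  have h := sub_mem hp (Ideal.mul_mem_right (j : O) (maximalIdeal O)
    ((mem_maximalIdeal _).mpr h2 : (2 : O) ∈ maximalIdeal O))
  rw [hj] at h
  push_cast at h
  simp at h

/-- **The quadratic relation at `p` on the model of `J₀`** of level prime to `p`. -/
theorem quotQuadraticAt_model (hp : (p : O) ∈ maximalIdeal O) {L : ℕ} [NeZero L] (hpL : ¬ p ∣ L)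
    (ι : ℤ_[p] →+* O) (θ : FullHecke L →+* O) :
    QuotQuadraticAt ((heckeGaloisModel L p).rep ι θ hp) p
      (θ (HeckeDuality.heckeOp L 2 p Fact.out)) := by
  intro P hP F hF b z ⟨h1, h2, h3⟩
  exact Eigen.quot_frobenius_quadratic (GaloisReps.congruenceProperty L p) ι hpL
    (FiniteFlat.orderProperty L) hp hP b
    (fun g hg => ⟨h1 g (Subgroup.map_subtype_le _ hg) _ (Submodule.mem_span_singleton_self _),
      h2 g hg⟩)
    hF (h1 F hF.mem_decompositionSubgroup _ (Submodule.mem_span_singleton_self _)) (h3 (b 1))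

/-- **The quadratic relation at `p` at a point.** -/
theorem quotQuadraticAt_of_eigenform (hp2 : p ≠ 2) (hp : (p : O) ∈ maximalIdeal O)
    {ρbar : ResidualGaloisRep (ResidueField O)} (habs : ρbar.IsAbsolutelyIrreducible)
    {A : Type} [CommRing A] [IsLocalRing A] [Algebra O A] [Module.Finite O A] (hA : IsResAlg O A)
    [IsLocalHom (algebraMap O A)] (ρ : GaloisRepAdic A)
    (hres : ρ.residual.IsEquiv (ρbar.baseChangeAlong (ResidueField.map (algebraMap O A))))
    (S : Finset ℕ) (op : ℕ → A)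
    (htr : ∀ ℓ : ℕ, ℓ.Prime → ℓ ∉ S → ∀ P : ValuationSubring QBar, P.LiesOverPrime ℓ →
      ∀ τ : Gal, P.IsFrobeniusAt τ ℓ → ρ.trace τ = op ℓ)
    (x : A →ₐ[O] O) (σ : O →+* ℂ) (hσ : Function.Injective σ) {L : ℕ} [NeZero L]
    (hpL : ¬ p ∣ L) {g : CuspForm (Gamma0 L) 2} (hg : g.IsNormalizedEigenform) (α : ℕ → O)
    (hα : ∀ q : ℕ, q.Prime → σ (α q) = qCoeff g q)
    (hgx : ∀ ℓ : ℕ, ℓ.Prime → ℓ ∉ S → qCoeff g ℓ = σ (x (op ℓ))) :
    QuotQuadraticAt (pointBC ρ x) p (α p) := by
  obtain ⟨ι, θ, hθ, he⟩ :=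
    exists_rep_isEquiv_pointBC hp2 hp habs hA ρ hres S op htr x σ hσ hg α hα hgx
  have h := (quotQuadraticAt_model hp hpL ι θ).congr he
  rwa [hθ p Fact.out hpL] at h

end Fermat.Agent.Lifting
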