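import Fermat.Agent.Lifting.Curve.Residual
import Fermat.Agent.EC.Rep.Cyclotomic

/-!
# The sign at a prime of multiplicative reduction dividing the characteristic

The Frobenius elements at `p` which fix the `p`-th roots of unity have, on a strictly ordinary
representation over a field of characteristic `p` with cyclotomic determinant, a single eigenvalue
`± 1`, independent of the element and of the place.
-/

set_option autoImplicit false
set_option linter.style.haveILetI false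

noncomputable section

open scoped Pointwise

namespace Fermat.Agent.Lifting

open IsLocalRing Module
open Fermat.Agent.Arith (QBar GQ)

variable {p : ℕ} [Fact p.Prime]

/-- A Frobenius element at a place over `p` fixing the `p`-th roots of unity. -/
theorem exists_frobenius_fix {P : ValuationSubring QBar} (hP : P.LiesOverPrime p) :
    ∃ σ : GQ, P.IsFrobeniusAt σ p ∧ ∀ μ : QBar, μ ^ p = 1 → σ μ = μ := by
  obtain ⟨F, hF⟩ := Arith.exists_isFrobeniusAt hP Fact.out
  obtain ⟨τ, hτ, hτF⟩ :=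
    EC.Rep.exists_mem_inertia_cyclotomicHom_eq hP (EC.Rep.cyclotomicHom p F)⁻¹
  refine ⟨F * τ, Arith.isFrobeniusAt_mul_inertia hF hτ, fun μ hμ => ?_⟩
  have h1 : EC.Rep.cyclotomicHom p (F * τ) = 1 := by rw [map_mul, hτF, mul_inv_cancel]
  have h2 : (F * τ) μ = μ ^ (EC.Rep.cyclotomicHom p (F * τ) : ZMod p).val :=
    modularCyclotomicCharacter.spec QBar (EC.Rep.card_rootsOfUnity_qbar p)
      ((F * τ : GQ) : QBar ≃+* QBar)
      (t := (rootsOfUnity.mkOfPowEq μ hμ : rootsOfUnity p QBar)) (rootsOfUnity.mkOfPowEq μ hμ).2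
  rw [h2, h1, Units.val_one, ZMod.val_one, pow_one]

section Line

variable {R V : Type} [CommRing R] [AddCommGroup V] [Module R V]

/-- Trace and determinant of an endomorphism stabilising the line of the first basis vector. -/
theorem trace_det_of_line (b : Basis (Fin 2) R V) {f : Module.End R V} {x z : R}
    (hx : f (b 0) = x • b 0) (hz : f (b 1) - z • b 1 ∈ R ∙ b 0) :
    LinearMap.trace R V f = x + z ∧ LinearMap.det f = x * z := by
  obtain ⟨c, hc⟩ := Submodule.mem_span_singleton.mp hz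
  have h1 : f (b 1) = c • b 0 + z • b 1 := by rw [hc, sub_add_cancel]
  rw [LinearMap.trace_eq_matrix_trace R b, ← LinearMap.det_toMatrix b, Matrix.trace_fin_two,
    Matrix.det_fin_two]
  simp [LinearMap.toMatrix_apply, hx, h1]

end Line

section Field

variable {k : Type} [Field k] {ρ : GaloisRepAdic k}

omit [Fact p.Prime] in
/-- Data of a fixing element of the decomposition group on the strict line. -/
theorem eq_of_strict {σ : GQ} {x z : k} (hpk : (p : k) = 0)
    (hc : ∀ (n a : ℕ), (∀ μ : QBar, μ ^ p ^ n = 1 → σ μ = μ ^ a) →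
      x - (a : k) * z ∈ Ideal.span {((p ^ n : ℕ) : k)})
    (hfix : ∀ μ : QBar, μ ^ p = 1 → σ μ = μ) : x = z := by
  have h := hc 1 1 fun μ hμ => by rw [pow_one] at hμ; rw [pow_one]; exact hfix μ hμ
  rw [pow_one, hpk, Ideal.span_singleton_eq_bot.mpr rfl, Ideal.mem_bot, Nat.cast_one, one_mul,
    sub_eq_zero] at h
  exact h

/-- **The sign of a strictly ordinary representation at `p`.** -/
theorem exists_sign_of_isStrictOrdinaryAt (hdet : ρ.DetIsCyclotomic p)
    (hs : ρ.IsStrictOrdinaryAt p) :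
    ∃ s : ℤ, (s = 1 ∨ s = -1) ∧ ∀ P : ValuationSubring QBar, P.LiesOverPrime p →
      ∀ σ : GQ, P.IsFrobeniusAt σ p → (∀ μ : QBar, μ ^ p = 1 → σ μ = μ) →
        LinearMap.trace k ρ.V (ρ.ρ σ) = ((2 * s : ℤ) : k) := by
  have hp : p.Prime := Fact.out
  have hpk : (p : k) = 0 := by
    by_contra h
    exact hdet.1 (isUnit_iff_ne_zero.mpr h)
  obtain ⟨P₀, hP₀⟩ := Arith.exists_liesOverPrime hp
  obtain ⟨σ₀, hσ₀, hfix₀⟩ := exists_frobenius_fix hP₀
  obtain ⟨L, ⟨b, rfl⟩, -, hI, hxz⟩ := hs.2 P₀ hP₀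
  obtain ⟨x, z, hx, hz, hc⟩ := hxz σ₀ hσ₀.mem_decompositionSubgroup
  obtain rfl := eq_of_strict hpk hc hfix₀
  have hb := Submodule.mem_span_singleton_self (R := k) (b 0)
  obtain ⟨-, hd⟩ := trace_det_of_line b (hx _ hb) (hz (b 1))
  have hd1 : LinearMap.det (ρ.ρ σ₀) = 1 := by
    have h := hdet.2 1 σ₀ 1 fun μ hμ => by rw [pow_one] at hμ; rw [pow_one]; exact hfix₀ μ hμ
    rw [pow_one, hpk, Ideal.span_singleton_eq_bot.mpr rfl, Ideal.mem_bot, Nat.cast_one,
      sub_eq_zero] at h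
    exact h
  obtain ⟨s, hs1, hxs⟩ : ∃ s : ℤ, (s = 1 ∨ s = -1) ∧ x = (s : k) := by
    rcases mul_self_eq_one_iff.mp (hd ▸ hd1) with h | h
    · exact ⟨1, Or.inl rfl, by simp [h]⟩
    · exact ⟨-1, Or.inr rfl, by simp [h]⟩
  refine ⟨s, hs1, fun P hP σ hσ hfix => ?_⟩
  obtain ⟨g, hg⟩ := Arith.exists_smul_eq hP hP₀ hp
  have hσ' : P₀.IsFrobeniusAt (g * σ * g⁻¹) p := hg ▸ Arith.isFrobeniusAt_conj hσ
  have hfix' : ∀ μ : QBar, μ ^ p = 1 → (g * σ * g⁻¹) μ = μ := fun μ hμ => by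
    rw [AlgEquiv.mul_apply, AlgEquiv.mul_apply, hfix _ (by rw [← map_pow, hμ, map_one]),
      ← AlgEquiv.mul_apply, mul_inv_cancel, AlgEquiv.one_apply]
  have htr : LinearMap.trace k ρ.V (ρ.ρ (g * σ * g⁻¹)) = LinearMap.trace k ρ.V (ρ.ρ σ) := by
    rw [map_mul, LinearMap.trace_mul_comm, ← map_mul, ← mul_assoc, inv_mul_cancel, one_mul]
  rw [← htr]
  set τ := σ₀⁻¹ * (g * σ * g⁻¹) with hτdef
  have hτ : τ ∈ P₀.inertiaSubgroupIn ℚ := Arith.inv_mul_mem_inertia hσ' hσ₀
  have hτfix : ∀ μ : QBar, μ ^ p = 1 → τ μ = μ := fun μ hμ => by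
    rw [hτdef, AlgEquiv.mul_apply, hfix' μ hμ]
    conv_lhs => rw [← hfix₀ μ hμ]
    rw [← AlgEquiv.mul_apply, inv_mul_cancel, AlgEquiv.one_apply]
  have hτD : τ ∈ P₀.decompositionSubgroup ℚ := by
    obtain ⟨⟨t', ht'⟩, -, e⟩ := hτ
    exact e ▸ ht'
  obtain ⟨x', z', hx', hz', hc'⟩ := hxz τ hτD
  obtain rfl := eq_of_strict hpk hc' hτfix
  have hz1 : x' = 1 := by
    have h := Submodule.sub_mem _ (hI τ hτ (b 1)) (hz' (b 1))
    rw [sub_sub_sub_cancel_left, ← one_smul k (b 1), smul_smul, mul_one, ← sub_smul] at h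
    obtain ⟨c, hcc⟩ := Submodule.mem_span_singleton.mp h
    have h0 := congrArg (fun v => b.repr v 1) hcc
    simp at h0
    exact (sub_eq_zero.mp h0.symm).symm ▸ rfl
  subst hz1
  rw [show g * σ * g⁻¹ = σ₀ * τ by rw [hτdef, mul_inv_cancel_left], map_mul]
  have h0 : (ρ.ρ σ₀ * ρ.ρ τ) (b 0) = x • b 0 := by
    rw [Module.End.mul_apply, hx' _ hb, one_smul, hx _ hb]
  have h1 : (ρ.ρ σ₀ * ρ.ρ τ) (b 1) - x • b 1 ∈ k ∙ b 0 := by
    obtain ⟨c, hcc⟩ := Submodule.mem_span_singleton.mp (hI τ hτ (b 1))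
    rw [Module.End.mul_apply, show ρ.ρ τ (b 1) = c • b 0 + b 1 by rw [hcc, sub_add_cancel],
      map_add, map_smul, hx _ hb, add_sub_assoc]
    exact add_mem (Submodule.smul_mem _ _ (Submodule.smul_mem _ _ hb)) (hz (b 1))
  rw [(trace_det_of_line b h0 h1).1, hxs]
  push_cast
  ring

end Field

/-- **The sign of a semistable curve at a bad `p`**, the same for all coefficient fields. -/
theorem exists_sign_at_p {W : WeierstrassCurve ℤ} (hΔ : W.Δ ≠ 0) (hW : W.IsSemistableModel)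
    (hp2 : p ≠ 2) :
    ∃ sp : ℤ, (sp = 1 ∨ sp = -1) ∧
      ((p : ℤ) ∣ W.Δ → ∀ P : ValuationSubring QBar, P.LiesOverPrime p →
        ∀ σ : GQ, P.IsFrobeniusAt σ p → (∀ μ : QBar, μ ^ p = 1 → σ μ = μ) →
          ∀ (k : Type) [Field k] [CharP k p],
            LinearMap.trace k _ ((Curve.residual (p := p) hΔ k).ρ σ) = ((2 * sp : ℤ) : k)) := by
  by_cases h : (p : ℤ) ∣ W.Δ
  · obtain ⟨s, hs, htr⟩ :=
      exists_sign_of_isStrictOrdinaryAt (EC.Rep.detIsCyclotomic_residualRep (W := W) (p := p) hΔ)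
        (EC.Rep.isStrictOrdinaryAt_residualRep hΔ hp2 h (hW p Fact.out h))
    refine ⟨s, hs, fun _ P hP σ hσ hfix k _ _ => ?_⟩
    letI := (ZMod.castHom (dvd_refl p) k).toAlgebra
    refine (LinearMap.trace_baseChange ((EC.Rep.residualRep W p hΔ).ρ σ) k).trans ?_
    refine (congrArg (algebraMap (ZMod p) k) (htr P hP σ hσ hfix)).trans ?_
    rw [map_intCast]
  · exact ⟨1, Or.inl rfl, fun hd => absurd hd h⟩

end Fermat.Agent.Lifting

end
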